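import Fermat.Agent.JF.Ret

set_option autoImplicit false

/-! S25: the base change of a line is a line. -/

universe u

open TensorProduct

namespace Fermat.Agent.JLB

open Fermat.Agent.JPC

noncomputable section

section Abs

variable {k : Type u} [Field k] {S : Type u} [CommRing S] [Algebra k S]
  {B : Type u} [CommRing B] [Algebra k B]
  {B' : Type u} [CommRing B'] [Algebra k B'] [Algebra B B'] [IsScalarTower k B B']

/-- `B ⊗ S → B' ⊗ S` -/
def bcS (S : Type u) [CommRing S] [Algebra k S] (B B' : Type u) [CommRing B] [Algebra k B]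
    [CommRing B'] [Algebra k B'] [Algebra B B'] [IsScalarTower k B B'] :
    B ⊗[k] S →ₐ[k] B' ⊗[k] S :=
  Algebra.TensorProduct.map (IsScalarTower.toAlgHom k B B') (AlgHom.id k S)

@[simp] theorem bcS_tmul (b : B) (a : S) :
    bcS (k := k) S B B' (b ⊗ₜ a) = algebraMap B B' b ⊗ₜ a := rfl

/-- algebra structure -/
@[reducible] def algS (k : Type u) [Field k] (S : Type u) [CommRing S] [Algebra k S]
    (B B' : Type u) [CommRing B] [Algebra k B]
    [CommRing B'] [Algebra k B'] [Algebra B B'] [IsScalarTower k B B'] :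
    Algebra (B ⊗[k] S) (B' ⊗[k] S) :=
  (bcS (k := k) S B B').toRingHom.toAlgebra

/-- abstract base change of invertible modules -/
theorem invertible_of_base {N : Type u} [AddCommGroup N] [Module B N] [Module (B ⊗[k] S) N]
    [IsScalarTower B (B ⊗[k] S) N] [Module.Invertible (B ⊗[k] S) N]
    {N' : Type u} [AddCommGroup N'] [Module B' N'] [Module (B' ⊗[k] S) N']
    [IsScalarTower B' (B' ⊗[k] S) N'] (e : B' ⊗[B] N ≃ₗ[B'] N')
    (he : ∀ (a : S) (m : N), ((1 : B') ⊗ₜ[k] a) • e (1 ⊗ₜ[B] m) =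
      e (1 ⊗ₜ[B] (((1 : B) ⊗ₜ[k] a) • m))) :
    Module.Invertible (B' ⊗[k] S) N' := by
  let _ := algS k S B B'
  have halg : ∀ r : B ⊗[k] S, algebraMap (B ⊗[k] S) (B' ⊗[k] S) r = bcS (k := k) S B B' r :=
    fun _ => rfl
  have t1 : IsScalarTower B (B ⊗[k] S) (B' ⊗[k] S) := by
    refine IsScalarTower.of_algebraMap_eq fun b => ?_
    rw [halg]
    show algebraMap B (B' ⊗[k] S) b = bcS (k := k) S B B' (b ⊗ₜ 1)
    rw [bcS_tmul, IsScalarTower.algebraMap_apply B B' (B' ⊗[k] S)]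
    rfl
  have hpo : Algebra.IsPushout B B' (B ⊗[k] S) (B' ⊗[k] S) :=
    Algebra.IsPushout.tensorProduct_tensorProduct k S B B' (by
      ext a
      simp [halg])
  have hb : ∀ (b : B) (m : N), (b ⊗ₜ[k] (1 : S)) • m = b • m := by
    intro b m
    have : (b ⊗ₜ[k] (1 : S)) = b • (1 : B ⊗[k] S) := by
      rw [Algebra.TensorProduct.one_def, TensorProduct.smul_tmul', smul_eq_mul, mul_one]
    rw [this, smul_assoc, one_smul]
  have hb' : ∀ (b : B') (m : N'), (b ⊗ₜ[k] (1 : S)) • m = b • m := by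
    intro b m
    have : (b ⊗ₜ[k] (1 : S)) = b • (1 : B' ⊗[k] S) := by
      rw [Algebra.TensorProduct.one_def, TensorProduct.smul_tmul', smul_eq_mul, mul_one]
    rw [this, smul_assoc, one_smul]
  let modR : Module (B ⊗[k] S) N' := Module.compHom _ (bcS (k := k) S B B').toRingHom
  have hmodR : ∀ (r : B ⊗[k] S) (m : N'), r • m = bcS (k := k) S B B' r • m := fun _ _ => rfl
  have tR : IsScalarTower (B ⊗[k] S) (B' ⊗[k] S) N' :=
    ⟨fun r s m => by rw [hmodR, ← mul_smul]; rfl⟩
  have hφR : ∀ (r : B ⊗[k] S) (m : N), e (1 ⊗ₜ (r • m)) = r • e (1 ⊗ₜ m) := by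
    intro r m
    induction r with
    | zero => rw [zero_smul, TensorProduct.tmul_zero, map_zero, zero_smul (B ⊗[k] S)]
    | tmul b a =>
      have h1 : (b ⊗ₜ[k] a : B ⊗[k] S) = (b ⊗ₜ 1) * (1 ⊗ₜ a) := by
        rw [Algebra.TensorProduct.tmul_mul_tmul, mul_one, one_mul]
      have h2 : (1 : B') ⊗ₜ[B] (b • (((1 : B) ⊗ₜ[k] a) • m)) =
        (algebraMap B B' b) • ((1 : B') ⊗ₜ[B] (((1 : B) ⊗ₜ[k] a) • m)) := by
        rw [algebraMap_smul, TensorProduct.tmul_smul]
      rw [h1, mul_smul, hb, h2, map_smul, hmodR, map_mul, bcS_tmul, bcS_tmul, map_one,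
        mul_smul, he, hb']
    | add x y hx hy => rw [add_smul, TensorProduct.tmul_add, map_add, hx, hy, add_smul]
  let φR : N →ₗ[B ⊗[k] S] N' :=
    { toFun := fun m => e (1 ⊗ₜ m)
      map_add' := fun a b => by rw [TensorProduct.tmul_add, map_add]
      map_smul' := hφR }
  let ψ : (B' ⊗[k] S) ⊗[B ⊗[k] S] N →ₗ[B' ⊗[k] S] N' := φR.liftBaseChange (B' ⊗[k] S)
  have hψ : ∀ (s : B' ⊗[k] S) (m : N), ψ (s ⊗ₜ m) = s • e (1 ⊗ₜ m) := fun _ _ => rfl
  have hcomp : ∀ z : B' ⊗[B] N,
      ψ ((Algebra.IsPushout.cancelBaseChange B B' (B ⊗[k] S) (B' ⊗[k] S) N).symm z) = e z := by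
    intro z
    induction z using TensorProduct.induction_on with
    | zero => rw [map_zero, map_zero, map_zero]
    | tmul b m =>
      rw [Algebra.IsPushout.cancelBaseChange_symm_tmul, hψ]
      show (b ⊗ₜ[k] (1 : S)) • e (1 ⊗ₜ m) = _
      rw [hb', ← map_smul, TensorProduct.smul_tmul', smul_eq_mul, mul_one]
    | add x y hx hy => rw [map_add, map_add, map_add, hx, hy]
  have hbij : Function.Bijective ψ := by
    have h1 : Function.Bijective (ψ ∘ (Algebra.IsPushout.cancelBaseChange B B' (B ⊗[k] S)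
        (B' ⊗[k] S) N).symm) := by
      have : (ψ ∘ (Algebra.IsPushout.cancelBaseChange B B' (B ⊗[k] S) (B' ⊗[k] S) N).symm) = e :=
        funext hcomp
      rw [this]
      exact e.bijective
    exact (Function.Bijective.of_comp_iff ψ (Algebra.IsPushout.cancelBaseChange B B' (B ⊗[k] S)
      (B' ⊗[k] S) N).symm.bijective).1 h1
  exact Module.Invertible.congr (LinearEquiv.ofBijective ψ hbij)

end Abs

variable {k : Type u} [Field k] {X : TwoChart k} {B : Type u} [CommRing B] [Algebra k B]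
  (B' : Type u) [CommRing B'] [Algebra k B'] [Algebra B B'] [IsScalarTower k B B']

theorem e0 {L : PreLD X B} (a : X.A0) (m : L.M0') :
    ((1 : B') ⊗ₜ[k] a) • (show (L.baseChange B').M from 1 ⊗ₜ (m : L.M)) =
      (show (L.baseChange B').M from 1 ⊗ₜ (((1 : B) ⊗ₜ[k] a) • (m : L.M))) := by
  rw [PreLD.tmul_smul0, one_smul, PreLD.tmul_smul0, one_smul]
  rfl

theorem e1 {L : PreLD X B} (a : X.A1) (m : L.M1') :
    ((1 : B') ⊗ₜ[k] a) • (show (L.baseChange B').M from 1 ⊗ₜ (m : L.M)) =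
      (show (L.baseChange B').M from 1 ⊗ₜ (((1 : B) ⊗ₜ[k] a) • (m : L.M))) := by
  rw [PreLD.tmul_smul1, one_smul, PreLD.tmul_smul1, one_smul]
  rfl

/-- **the base change of a line is a line** -/
theorem isLine_baseChange {L : PreLD X B} (hL : L.IsLine) : (L.baseChange B').IsLine where
  inv0 := by
    have := hL.inv0
    let e : B' ⊗[B] L.M0' ≃ₗ[B'] (L.baseChange B').M0' :=
      LinearEquiv.ofBijective (L.M0.toBaseChange B') (Fermat.Agent.JF.toBC0_bijective B' hL)
    exact invertible_of_base (k := k) (S := X.A0) (N := L.M0') (N' := (L.baseChange B').M0') e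
      fun a m => Subtype.ext (e0 B' a m)
  inv1 := by
    have := hL.inv1
    let e : B' ⊗[B] L.M1' ≃ₗ[B'] (L.baseChange B').M1' :=
      LinearEquiv.ofBijective (L.M1.toBaseChange B') (Fermat.Agent.JF.toBC1_bijective B' hL)
    exact invertible_of_base (k := k) (S := X.A1) (N := L.M1') (N' := (L.baseChange B').M1') e
      fun a m => Subtype.ext (e1 B' a m)

end

end Fermat.Agent.JLB
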